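import Mathlib
import Fermat.Agent.S24.CuspMer
import Fermat.Agent.S24.PhiInvGen

set_option autoImplicit false

/-!
# S29 (R3, MF auxiliary): `n`-th roots stay meromorphic at the cusps

If `y ∈ Mer` is `N`-periodic and `y ^ n ∈ MerInf N` then `y ∈ MerInf N`; hence for a
`Γ₀(N)`-invariant `y` all `SL(2,ℤ)`-translates of `y` lie in `MerInf N` as soon as those of `y ^ n`
do (`g T^N g⁻¹ ∈ Γ(N) ⊆ Γ₀(N)`).
-/

open UpperHalfPlane Filter Topology Complex
open scoped Manifold MatrixGroups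
open Fermat.Agent.S24 Fermat.Agent.S24.PsiLe

namespace Fermat.Agent.S29.Analytic.RootCusp

local notation "𝕢" => Function.Periodic.qParam

theorem conj_T_pow_mem_Gamma0 (N : ℕ) (g : SL(2, ℤ)) :
    g * ModularGroup.T ^ (N : ℤ) * g⁻¹ ∈ CongruenceSubgroup.Gamma0 N := by
  rw [CongruenceSubgroup.Gamma0_mem]
  have h : ((g * ModularGroup.T ^ (N : ℤ) * g⁻¹ : SL(2, ℤ)) 1 0 : ℤ) = -(g 1 0) ^ 2 * N := by
    have hinv := Matrix.SpecialLinearGroup.SL2_inv_expl g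
    have h1 : ((g * ModularGroup.T ^ (N : ℤ) * g⁻¹ : SL(2, ℤ)) : Matrix (Fin 2) (Fin 2) ℤ) =
        (g : Matrix (Fin 2) (Fin 2) ℤ) * !![1, (N : ℤ); 0, 1] *
          !![g 1 1, -g 0 1; -g 1 0, g 0 0] := by
      rw [Matrix.SpecialLinearGroup.coe_mul, Matrix.SpecialLinearGroup.coe_mul,
        ModularGroup.coe_T_zpow]
      congr 1
      rw [hinv]
      rfl
    show ((g * ModularGroup.T ^ (N : ℤ) * g⁻¹ : SL(2, ℤ)) : Matrix (Fin 2) (Fin 2) ℤ) 1 0 = _
    rw [h1]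
    simp [Matrix.mul_apply, Fin.sum_univ_two]
    ring
  rw [h]
  simp

/-- A function whose `n`-th power is bounded at `i∞` is bounded at `i∞`. -/
theorem isBoundedAtImInfty_of_pow {n : ℕ} (hn : 0 < n) {g : ℍ → ℂ}
    (hb : IsBoundedAtImInfty (fun τ => g τ ^ n)) : IsBoundedAtImInfty g := by
  rw [UpperHalfPlane.isBoundedAtImInfty_iff] at hb ⊢
  obtain ⟨M, A, hMA⟩ := hb
  refine ⟨max M 1, A, fun z hz => ?_⟩
  have h1 := hMA z hz
  rw [norm_pow] at h1
  by_cases h2 : ‖g z‖ ≤ 1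
  · exact h2.trans (le_max_right _ _)
  · push Not at h2
    have h3 : ‖g z‖ ≤ ‖g z‖ ^ n := by
      calc ‖g z‖ = ‖g z‖ ^ 1 := (pow_one _).symm
        _ ≤ ‖g z‖ ^ n := pow_le_pow_right₀ h2.le hn
    exact (h3.trans h1).trans (le_max_left _ _)

variable (N : ℕ) [NeZero N]

/-- A holomorphic `N`-periodic function whose `n`-th power is meromorphic at `i∞` is meromorphic
at `i∞`. -/
theorem mem_HolInf_of_pow_mem {n : ℕ} (hn : 0 < n) {h : Hol}
    (hper : ∀ τ : ℍ, (h : ℍ → ℂ) ((N : ℝ) +ᵥ τ) = (h : ℍ → ℂ) τ) (hc : h ^ n ∈ HolInf N) :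
    h ∈ HolInf N := by
  rcases eq_or_ne h 0 with rfl | h0
  · exact zero_mem _
  have hh := cuspMer_pos N
  have hc' : IsMeroCusp (N : ℝ) ((h ^ n : Hol) : ℍ → ℂ) := hc
  have hc0 : ((h ^ n : Hol) : ℍ → ℂ) ≠ 0 := Hol.coe_ne_zero (pow_ne_zero n h0)
  set k : ℤ := ordCusp (N : ℝ) ((h ^ n : Hol) : ℍ → ℂ) with hk
  set m : ℕ := (-k).toNat with hm
  have hkm : 0 ≤ k + (n * m : ℕ) := by
    have h1 : -k ≤ (m : ℤ) := Int.self_le_toNat _
    have h2 : (m : ℤ) ≤ ((n * m : ℕ) : ℤ) := by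
      exact_mod_cast Nat.le_mul_of_pos_left m hn
    omega
  have hq := isMeroCusp_qParam_pow hh (n * m)
  have hq0 := qParam_pow_fun_ne_zero (N : ℝ) (n * m)
  have hprod : IsMeroCusp (N : ℝ)
      (((h ^ n : Hol) : ℍ → ℂ) * fun τ : ℍ => 𝕢 (N : ℝ) τ ^ (n * m)) := hc'.mul hh hq
  have hprod0 : ((h ^ n : Hol) : ℍ → ℂ) * (fun τ : ℍ => 𝕢 (N : ℝ) τ ^ (n * m)) ≠ 0 :=
    mul_ne_zero_of_mdiff hc'.mdiff hq.mdiff hc0 hq0
  have hord : 0 ≤ ordCusp (N : ℝ)
      (((h ^ n : Hol) : ℍ → ℂ) * fun τ : ℍ => 𝕢 (N : ℝ) τ ^ (n * m)) := by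
    rw [ordCusp_mul hh hc' hq hc0 hq0, ordCusp_qParam_pow hh]
    exact hkm
  obtain ⟨c, hc⟩ := hprod.tendsto_of_ordCusp_nonneg hh hprod0 hord
  have hb : IsBoundedAtImInfty
      (((h ^ n : Hol) : ℍ → ℂ) * fun τ : ℍ => 𝕢 (N : ℝ) τ ^ (n * m)) := hc.isBigO_one ℝ
  have hb' : IsBoundedAtImInfty (fun τ : ℍ => ((h : ℍ → ℂ) τ * 𝕢 (N : ℝ) τ ^ m) ^ n) := by
    have : (fun τ : ℍ => ((h : ℍ → ℂ) τ * 𝕢 (N : ℝ) τ ^ m) ^ n) =
        ((h ^ n : Hol) : ℍ → ℂ) * fun τ : ℍ => 𝕢 (N : ℝ) τ ^ (n * m) := by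
      funext τ
      simp only [Pi.mul_apply, Hol.coe_pow, Pi.pow_apply]
      rw [mul_pow, ← pow_mul, mul_comm m n]
    rw [this]
    exact hb
  exact isMeroCusp_of_isBounded_mul_pow hh h.2 hper m (isBoundedAtImInfty_of_pow hn hb')

/-- elements of `HolInf N` are fixed by `T ^ N` -/
theorem compHol_T_pow_of_mem_HolInf {b : Hol} (hb : b ∈ HolInf N) :
    compHol (ModularGroup.T ^ (N : ℤ)) b = b := by
  refine Hol.ext fun τ => ?_
  rw [compHol_apply, UpperHalfPlane.modular_T_zpow_smul]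
  have := (mem_HolInf N).mp hb
  simpa using this.periodic τ

/-- **Roots stay meromorphic at the cusp.** An `N`-periodic element of `Mer` whose `n`-th power
lies in `MerInf N` lies in `MerInf N`. -/
theorem mem_MerInf_of_pow_mem {n : ℕ} (hn : 0 < n) {y : Mer}
    (hper : compMer (ModularGroup.T ^ (N : ℤ)) y = y) (h : y ^ n ∈ MerInf N) : y ∈ MerInf N := by
  rcases eq_or_ne y 0 with rfl | hy0
  · exact zero_mem _
  obtain ⟨a, b, ha, hb, ha0, hb0, hab⟩ := MerInf.exists_rep N h (pow_ne_zero n hy0)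
  have hb' := toMer_ne_zero hb0
  -- `u = y * b` is integral over `Hol`
  have hun : (y * toMer b) ^ n = toMer (a * b ^ (n - 1)) := by
    rw [mul_pow, hab, map_mul, map_pow]
    have hpow : toMer b ^ n = toMer b ^ (n - 1) * toMer b := by
      rw [← pow_succ, Nat.sub_add_cancel hn]
    rw [hpow]
    field_simp
  have hint : IsIntegral Hol (y * toMer b) := by
    apply IsIntegral.of_pow hn
    rw [hun]
    exact isIntegral_algebraMap
  obtain ⟨hh, hhu⟩ := Mer.exists_hol_of_isIntegral hint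
  -- periodicity of `hh`
  have hper' : compHol (ModularGroup.T ^ (N : ℤ)) hh = hh := by
    apply toMer_injective
    rw [← compMer_toMer, hhu, map_mul, hper, compMer_toMer, compHol_T_pow_of_mem_HolInf N hb]
  have hperτ : ∀ τ : ℍ, (hh : ℍ → ℂ) ((N : ℝ) +ᵥ τ) = (hh : ℍ → ℂ) τ := by
    intro τ
    have := congrFun (congrArg Subtype.val hper') τ
    rw [compHol_apply, UpperHalfPlane.modular_T_zpow_smul] at this
    simpa using this
  have hpow : hh ^ n = a * b ^ (n - 1) := by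
    apply toMer_injective
    rw [map_pow, hhu, hun]
  have hmem : hh ∈ HolInf N := by
    apply mem_HolInf_of_pow_mem N hn hperτ
    rw [hpow]
    exact mul_mem ha (pow_mem hb _)
  have hy : y = toMer hh / toMer b := by
    rw [hhu, mul_div_cancel_right₀ _ hb']
  rw [hy]
  exact div_mem_MerInf N hmem hb

/-- All `SL(2,ℤ)`-translates of a `Γ₀(N)`-invariant `n`-th root are meromorphic at `i∞` as soon as
those of its `n`-th power are. -/
theorem forall_mem_MerInf_of_pow {n : ℕ} (hn : 0 < n) {y : Mer}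
    (hinv : ∀ γ ∈ CongruenceSubgroup.Gamma0 N, compMer γ y = y)
    (h : ∀ g : SL(2, ℤ), compMer g (y ^ n) ∈ MerInf N) (g : SL(2, ℤ)) :
    compMer g y ∈ MerInf N := by
  apply mem_MerInf_of_pow_mem N hn
  · rw [PhiInvGen.compMer_compMer]
    have e : g * ModularGroup.T ^ (N : ℤ) = (g * ModularGroup.T ^ (N : ℤ) * g⁻¹) * g := by group
    rw [e, ← PhiInvGen.compMer_compMer, hinv _ (conj_T_pow_mem_Gamma0 N g)]
  · rw [← map_pow]
    exact h g

end Fermat.Agent.S29.Analytic.RootCusp
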