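import Mathlib
import Fermat.Agent.S24.Mer

set_option autoImplicit false

/-!
# S29 (R3, leaf F1): `n`-th roots of holomorphic / meromorphic functions on the upper half plane

A non-zero element of `S24.Hol` (resp. `S24.Mer`) all of whose orders are divisible by `n` is an
`n`-th power.  Method: on a disk relatively compact in `ℍ` divide out the finitely many zeros,
take a logarithm of the non-vanishing rest (primitive of the logarithmic derivative on a disk),
normalise at a base point and glue along the family of all such disks (two disks meet in a convex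
set, on which normalised roots are unique).
-/

open Complex Metric Set Topology Filter UpperHalfPlane
open Fermat.Agent.S24

namespace Fermat.Agent.S29.Analytic.PthRoot

/-- A non-vanishing holomorphic function on a disk has a holomorphic `n`-th root. -/
theorem exists_root_ball_of_ne_zero {n : ℕ} (hn : 0 < n) {c : ℂ} {r : ℝ} {u : ℂ → ℂ}
    (hu : DifferentiableOn ℂ u (ball c r)) (hu0 : ∀ z ∈ ball c r, u z ≠ 0) :
    ∃ v : ℂ → ℂ, DifferentiableOn ℂ v (ball c r) ∧ ∀ z ∈ ball c r, v z ^ n = u z := by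
  by_cases hc : c ∈ ball c r
  swap
  · refine ⟨fun _ => 0, differentiableOn_const _, ?_⟩
    intro z hz
    exfalso
    apply hc
    rw [mem_ball] at hz ⊢
    rw [dist_self]
    exact lt_of_le_of_lt dist_nonneg hz
  have hopen : IsOpen (ball c r) := isOpen_ball
  have hd : DifferentiableOn ℂ (deriv u) (ball c r) := hu.deriv hopen
  have hh : DifferentiableOn ℂ (fun z => deriv u z / u z) (ball c r) := hd.div hu hu0
  obtain ⟨H, hH⟩ := hh.isExactOn_ball
  -- `q = u * exp (-H)` is constant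
  set q : ℂ → ℂ := fun z => u z * cexp (-H z) with hq
  have hqd : ∀ z ∈ ball c r, HasDerivAt q 0 z := by
    intro z hz
    have h1 : HasDerivAt u (deriv u z) z :=
      ((hu z hz).differentiableAt (hopen.mem_nhds hz)).hasDerivAt
    have h2 : HasDerivAt (fun z => cexp (-H z)) (cexp (-H z) * (-(deriv u z / u z))) z :=
      ((hH z hz).neg).cexp
    have h3 := h1.mul h2
    have : deriv u z * cexp (-H z) + u z * (cexp (-H z) * -(deriv u z / u z)) = 0 := by
      have := hu0 z hz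
      field_simp
      ring
    rw [this] at h3
    exact h3
  have hqdiff : DifferentiableOn ℂ q (ball c r) := fun z hz =>
    (hqd z hz).differentiableAt.differentiableWithinAt
  have hqderiv : EqOn (deriv q) 0 (ball c r) := fun z hz => (hqd z hz).deriv
  have hconst : ∀ z ∈ ball c r, q z = q c := fun z hz =>
    hopen.is_const_of_deriv_eq_zero (convex_ball c r).isPreconnected hqdiff hqderiv hz hc
  have hqc : q c ≠ 0 := mul_ne_zero (hu0 c hc) (exp_ne_zero _)
  refine ⟨fun z => cexp ((H z + Complex.log (q c)) / n), ?_, ?_⟩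
  · intro z hz
    have h1 : DifferentiableAt ℂ H z := (hH z hz).differentiableAt
    have : DifferentiableAt ℂ (fun z => cexp ((H z + Complex.log (q c)) / n)) z := by
      fun_prop
    exact this.differentiableWithinAt
  · intro z hz
    have hn0 : (n : ℂ) ≠ 0 := Nat.cast_ne_zero.mpr hn.ne'
    simp only
    rw [← Complex.exp_nat_mul, mul_div_cancel₀ _ hn0, Complex.exp_add, Complex.exp_log hqc,
      ← hconst z hz, hq]
    simp only
    rw [mul_comm (cexp (H z)), mul_assoc, ← Complex.exp_add]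
    simp

/-- Two holomorphic `n`-th roots of the same function on a connected open set which agree (and
do not vanish) at one point are equal. -/
theorem root_unique {n : ℕ} {S : Set ℂ} (hS : IsOpen S) (hSc : IsPreconnected S)
    {z0 : ℂ} (hz0 : z0 ∈ S) {g1 g2 : ℂ → ℂ} (h1 : DifferentiableOn ℂ g1 S)
    (h2 : DifferentiableOn ℂ g2 S) (hpow : ∀ z ∈ S, g1 z ^ n = g2 z ^ n)
    (heq : g1 z0 = g2 z0) (hne : g1 z0 ≠ 0) (hn : 0 < n) : EqOn g1 g2 S := by
  have ha1 : AnalyticOnNhd ℂ g1 S := h1.analyticOnNhd hS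
  have ha2 : AnalyticOnNhd ℂ g2 S := h2.analyticOnNhd hS
  refine ha1.eqOn_of_preconnected_of_eventuallyEq ha2 hSc hz0 ?_
  set s : ℂ → ℂ := fun z => ∑ i ∈ Finset.range n, g1 z ^ i * g2 z ^ (n - 1 - i) with hs
  have hc1 : ContinuousAt g1 z0 := (ha1 z0 hz0).continuousAt
  have hc2 : ContinuousAt g2 z0 := (ha2 z0 hz0).continuousAt
  have hsc : ContinuousAt s z0 := by
    rw [hs]
    exact tendsto_finsetSum _ fun i _ => (hc1.pow i).mul (hc2.pow _)
  have hs0 : s z0 ≠ 0 := by
    rw [hs]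
    simp only
    rw [← heq, geom_sum₂_self]
    exact mul_ne_zero (Nat.cast_ne_zero.mpr hn.ne') (pow_ne_zero _ hne)
  filter_upwards [hS.mem_nhds hz0, hsc.eventually_ne hs0] with z hz hsz
  have h := geom_sum₂_mul (g1 z) (g2 z) n
  rw [hpow z hz, sub_self] at h
  rcases mul_eq_zero.mp h with h | h
  · exact absurd h hsz
  · exact sub_eq_zero.mp h

theorem ordNat_one (z0 : ℍ) : Hol.ordNat z0 1 = 0 := by
  rw [Hol.ordNat, Hol.ordAt_one]; rfl

theorem ordNat_pow (z0 : ℍ) {f : Hol} (hf : f ≠ 0) (k : ℕ) :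
    Hol.ordNat z0 (f ^ k) = k * Hol.ordNat z0 f := by
  induction k with
  | zero => simp [ordNat_one]
  | succ k ih =>
    rw [pow_succ, Hol.ordNat_mul z0 (pow_ne_zero k hf) hf, ih]
    ring

/-- Divide out the zeros at finitely many points, as an `n`-th power. -/
theorem exists_factor {n : ℕ} (hn : 0 < n) {φ : Hol} (hφ : φ ≠ 0)
    (h : ∀ z0 : ℍ, n ∣ Hol.ordNat z0 φ) (Z : Finset ℍ) :
    ∃ P u : Hol, φ = P ^ n * u ∧ ∀ w ∈ Z, (u : ℍ → ℂ) w ≠ 0 := by
  classical
  induction Z using Finset.induction_on with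
  | empty => exact ⟨1, φ, by simp, by simp⟩
  | insert w Z hw ih =>
    obtain ⟨P', u', hPu, hu'⟩ := ih
    have hP0 : P' ≠ 0 := by
      rintro rfl
      apply hφ
      rw [hPu, zero_pow hn.ne', zero_mul]
    have hu0 : u' ≠ 0 := by
      rintro rfl
      apply hφ
      rw [hPu, mul_zero]
    have hord : Hol.ordNat w φ = n * Hol.ordNat w P' + Hol.ordNat w u' := by
      rw [hPu, Hol.ordNat_mul w (pow_ne_zero n hP0) hu0, ordNat_pow w hP0]
    have hdvd : n ∣ Hol.ordNat w u' := by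
      have h1 := h w
      rw [hord] at h1
      exact (Nat.dvd_add_right (dvd_mul_right n _)).mp h1
    obtain ⟨e, he⟩ := hdvd
    obtain ⟨u'', hu''w, hu''⟩ := Hol.exists_eq_pow_mul w hu0
    refine ⟨P' * Hol.idSub w ^ e, u'', ?_, ?_⟩
    · rw [hPu, mul_pow, ← pow_mul, mul_comm e n, ← he, mul_assoc, ← hu'']
    · intro w' hw'
      rcases Finset.mem_insert.mp hw' with rfl | hw'
      · exact hu''w
      · intro h0
        apply hu' w' hw'
        rw [hu'']
        simp [h0]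

/-- A non-zero holomorphic function has finitely many zeros on a compact disk inside `ℍ`. -/
theorem finite_zeros_closedBall {φ : Hol} (hφ : φ ≠ 0) {c : ℂ} {r : ℝ}
    (hK : closedBall c r ⊆ {z : ℂ | 0 < z.im}) :
    {w : ℍ | (w : ℂ) ∈ closedBall c r ∧ (φ : ℍ → ℂ) w = 0}.Finite := by
  have hconn : IsPreconnected {z : ℂ | 0 < z.im} := (convex_halfSpace_im_gt 0).isPreconnected
  rcases (Hol.analyticOnNhd φ).eqOn_zero_or_eventually_ne_zero_of_preconnected hconn with h0 | h0
  · exfalso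
    apply hφ
    ext τ
    have := h0 τ.im_pos
    simpa [Function.comp, ofComplex_apply] using this
  · have h1 : {x | ((φ : ℍ → ℂ) ∘ ofComplex) x ≠ 0} ∈ codiscreteWithin (closedBall c r) :=
      Filter.codiscreteWithin_mono hK h0
    have h2 := (isCompact_closedBall c r).finite_sdiff_of_mem_codiscreteWithin h1
    refine (h2.preimage (coe_injective.injOn)).subset ?_
    rintro w ⟨hw1, hw2⟩
    refine ⟨hw1, ?_⟩
    simp only [Set.mem_ofPred_eq, not_not]
    rw [Hol.comp_ofComplex_apply]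
    exact hw2

/-- Local `n`-th root on a disk whose closure lies in the upper half plane. -/
theorem exists_root_ball {n : ℕ} (hn : 0 < n) {φ : Hol} (hφ : φ ≠ 0)
    (h : ∀ z0 : ℍ, n ∣ Hol.ordNat z0 φ) {c : ℂ} {r : ℝ}
    (hK : closedBall c r ⊆ {z : ℂ | 0 < z.im}) :
    ∃ g : ℂ → ℂ, DifferentiableOn ℂ g (ball c r) ∧
      ∀ z ∈ ball c r, g z ^ n = ((φ : ℍ → ℂ) ∘ ofComplex) z := by
  classical
  have hfin := finite_zeros_closedBall hφ hK
  obtain ⟨P, u, hPu, hu⟩ := exists_factor hn hφ h hfin.toFinset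
  have hsub : ball c r ⊆ {z : ℂ | 0 < z.im} := ball_subset_closedBall.trans hK
  have hu0 : ∀ z ∈ ball c r, ((u : ℍ → ℂ) ∘ ofComplex) z ≠ 0 := by
    intro z hz
    have hzU : 0 < z.im := hsub hz
    set w : ℍ := ⟨z, hzU⟩ with hw
    have hzw : ((u : ℍ → ℂ) ∘ ofComplex) z = (u : ℍ → ℂ) w := by
      simp [Function.comp, ofComplex_apply_of_im_pos hzU, hw]
    rw [hzw]
    by_cases h0 : (φ : ℍ → ℂ) w = 0
    · apply hu w
      rw [Set.Finite.mem_toFinset]
      exact ⟨ball_subset_closedBall hz, h0⟩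
    · intro hu0
      apply h0
      rw [hPu]
      simp [hu0]
  obtain ⟨v, hv, hvn⟩ := exists_root_ball_of_ne_zero hn ((Hol.differentiableOn u).mono hsub) hu0
  refine ⟨fun z => ((P : ℍ → ℂ) ∘ ofComplex) z * v z, ?_, ?_⟩
  · exact ((Hol.differentiableOn P).mono hsub).mul hv
  · intro z hz
    simp only
    rw [mul_pow, hvn z hz, hPu]
    simp [Function.comp]

/-- Normalised local `n`-th root. -/
theorem exists_root_ball_normalised {n : ℕ} (hn : 0 < n) {φ : Hol} (hφ : φ ≠ 0)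
    (h : ∀ z0 : ℍ, n ∣ Hol.ordNat z0 φ) {c : ℂ} {r : ℝ}
    (hK : closedBall c r ⊆ {z : ℂ | 0 < z.im}) {zs : ℍ} (hzs : (zs : ℂ) ∈ ball c r)
    (hφzs : (φ : ℍ → ℂ) zs ≠ 0) {c0 : ℂ} (hc0 : c0 ^ n = (φ : ℍ → ℂ) zs) :
    ∃ g : ℂ → ℂ, DifferentiableOn ℂ g (ball c r) ∧
      (∀ z ∈ ball c r, g z ^ n = ((φ : ℍ → ℂ) ∘ ofComplex) z) ∧ g zs = c0 := by
  obtain ⟨g, hg, hgn⟩ := exists_root_ball hn hφ h hK
  have h1 : g zs ^ n = (φ : ℍ → ℂ) zs := by
    rw [hgn _ hzs, Hol.comp_ofComplex_apply]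
  have hg0 : g zs ≠ 0 := by
    intro h0
    rw [h0, zero_pow hn.ne'] at h1
    exact hφzs h1.symm
  refine ⟨fun z => (c0 / g zs) * g z, (differentiableOn_const _).mul hg, ?_, ?_⟩
  · intro z hz
    simp only
    rw [mul_pow, div_pow, hc0, h1, div_self hφzs, one_mul, hgn z hz]
  · simp only
    rw [div_mul_cancel₀ _ hg0]

theorem closedBall_subset_upper {t : ℝ} (ht : 1 < t) :
    closedBall (Complex.I * t) (t - 1 / t) ⊆ {z : ℂ | 0 < z.im} := by
  intro x hx
  rw [mem_closedBall, Complex.dist_eq] at hx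
  have h1 := Complex.abs_im_le_norm (x - Complex.I * t)
  have h2 : (x - Complex.I * t).im = x.im - t := by simp
  rw [h2] at h1
  have h3 : 0 < 1 / t := by positivity
  have h4 := (abs_le.mp (h1.trans hx)).1
  show 0 < x.im
  linarith

theorem mem_ball_of_le {w : ℂ} {t : ℝ} (ht1 : 1 < t)
    (ht : w.re ^ 2 + w.im ^ 2 + 2 ≤ 2 * w.im * t) : w ∈ ball (Complex.I * t) (t - 1 / t) := by
  rw [mem_ball, Complex.dist_eq]
  have ht0 : 0 < t := by linarith
  have h3 : 0 < 1 / t := by positivity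
  have h4 : 1 / t < 1 := by
    rw [div_lt_one ht0]; exact ht1
  have hr : 0 ≤ t - 1 / t := by linarith
  apply lt_of_pow_lt_pow_left₀ 2 hr
  rw [Complex.sq_norm, Complex.normSq_apply]
  have e1 : (w - Complex.I * t).re = w.re := by simp
  have e2 : (w - Complex.I * t).im = w.im - t := by simp
  rw [e1, e2]
  have h5 : (t - 1 / t) ^ 2 = t ^ 2 - 2 + (1 / t) ^ 2 := by
    field_simp
    ring
  rw [h5]
  have h6 : 0 < (1 / t) ^ 2 := by positivity
  nlinarith

theorem exists_good_ball (zs z : ℂ) (hzs : 0 < zs.im) (hz : 0 < z.im) :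
    ∃ p : ℂ × ℝ, (closedBall p.1 p.2 ⊆ {z : ℂ | 0 < z.im} ∧ zs ∈ ball p.1 p.2) ∧
      z ∈ ball p.1 p.2 := by
  set T : ℂ → ℝ := fun w => (w.re ^ 2 + w.im ^ 2 + 2) / (2 * w.im) with hT
  have hTpos : ∀ w : ℂ, 0 < w.im → 0 < T w := by
    intro w hw
    rw [hT]
    positivity
  set t : ℝ := max (T zs) (T z) + 1 with ht
  have ht1 : 1 < t := by
    have := lt_of_lt_of_le (hTpos zs hzs) (le_max_left (T zs) (T z))
    linarith
  have hle : ∀ w : ℂ, 0 < w.im → T w ≤ t → w.re ^ 2 + w.im ^ 2 + 2 ≤ 2 * w.im * t := by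
    intro w hw hwt
    rw [hT] at hwt
    simp only at hwt
    rw [div_le_iff₀ (by positivity)] at hwt
    linarith
  refine ⟨(Complex.I * t, t - 1 / t), ⟨closedBall_subset_upper ht1, ?_⟩, ?_⟩
  · exact mem_ball_of_le ht1 (hle zs hzs (by have := le_max_left (T zs) (T z); linarith))
  · exact mem_ball_of_le ht1 (hle z hz (by have := le_max_right (T zs) (T z); linarith))

/-- **`n`-th roots on the upper half plane.** A non-zero holomorphic function on `ℍ` all of whose
orders of vanishing are divisible by `n` is an `n`-th power. -/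
theorem exists_root {n : ℕ} (hn : 0 < n) {φ : Hol} (hφ : φ ≠ 0)
    (h : ∀ z0 : ℍ, n ∣ Hol.ordNat z0 φ) : ∃ G : Hol, G ^ n = φ := by
  classical
  obtain ⟨zs, hzs⟩ : ∃ zs : ℍ, (φ : ℍ → ℂ) zs ≠ 0 := by
    by_contra hcon
    push Not at hcon
    exact hφ (Hol.ext fun z => by rw [hcon z]; rfl)
  obtain ⟨c0, hc0⟩ := IsAlgClosed.exists_pow_nat_eq ((φ : ℍ → ℂ) zs) hn
  have hc00 : c0 ≠ 0 := by
    intro h0
    rw [h0, zero_pow hn.ne'] at hc0
    exact hzs hc0.symm
  set U : Set ℂ := {z : ℂ | 0 < z.im} with hU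
  set F : ℂ → ℂ := (φ : ℍ → ℂ) ∘ ofComplex with hF
  set Good : ℂ × ℝ → Prop := fun p => closedBall p.1 p.2 ⊆ U ∧ (zs : ℂ) ∈ ball p.1 p.2 with hGood
  have hroot : ∀ p : ℂ × ℝ, Good p → ∃ g : ℂ → ℂ, DifferentiableOn ℂ g (ball p.1 p.2) ∧
      (∀ z ∈ ball p.1 p.2, g z ^ n = F z) ∧ g zs = c0 :=
    fun p hp => exists_root_ball_normalised hn hφ h hp.1 hp.2 hzs hc0
  choose! g hg1 hg2 hg3 using hroot
  have hcompat : ∀ p q, Good p → Good q →
      EqOn (g p) (g q) (ball p.1 p.2 ∩ ball q.1 q.2) := by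
    intro p q hp hq
    refine root_unique (isOpen_ball.inter isOpen_ball)
      ((convex_ball _ _).inter (convex_ball _ _)).isPreconnected ⟨hp.2, hq.2⟩
      ((hg1 p hp).mono inter_subset_left) ((hg1 q hq).mono inter_subset_right) ?_ ?_ ?_ hn
    · intro z hz
      rw [hg2 p hp z hz.1, hg2 q hq z hz.2]
    · rw [hg3 p hp, hg3 q hq]
    · rw [hg3 p hp]
      exact hc00
  have hcover : ∀ z : ℂ, z ∈ U → ∃ p : ℂ × ℝ, Good p ∧ z ∈ ball p.1 p.2 :=
    fun z hz => exists_good_ball zs z zs.im_pos hz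
  choose! pz hpz1 hpz2 using hcover
  set G : ℂ → ℂ := fun z => g (pz z) z with hG
  have hGeq : ∀ p, Good p → EqOn G (g p) (ball p.1 p.2) := by
    intro p hp z hz
    have hzU : z ∈ U := hp.1 (ball_subset_closedBall hz)
    exact hcompat (pz z) p (hpz1 z hzU) hp ⟨hpz2 z hzU, hz⟩
  have hGdiff : DifferentiableOn ℂ G U := by
    intro z hz
    have hp := hpz1 z hz
    have hzp := hpz2 z hz
    have hev : G =ᶠ[𝓝 z] g (pz z) := by
      filter_upwards [isOpen_ball.mem_nhds hzp] with x hx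
      exact hGeq (pz z) hp hx
    have hd : DifferentiableAt ℂ (g (pz z)) z :=
      ((hg1 _ hp) z hzp).differentiableAt (isOpen_ball.mem_nhds hzp)
    exact (hd.congr_of_eventuallyEq hev).differentiableWithinAt
  refine ⟨Hol.ofComplexFun G hGdiff, ?_⟩
  ext z
  rw [Hol.coe_pow, Pi.pow_apply, Hol.ofComplexFun_apply]
  have hzU : (z : ℂ) ∈ U := z.im_pos
  have := hg2 _ (hpz1 _ hzU) _ (hpz2 _ hzU)
  rw [hF, Hol.comp_ofComplex_apply] at this
  exact this

/-- **`n`-th roots in `Mer`.** A non-zero meromorphic function on `ℍ` all of whose orders are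
divisible by `n` is an `n`-th power. -/
theorem exists_root_mer {n : ℕ} (hn : 0 < n) {x : Mer} (hx : x ≠ 0)
    (h : ∀ z0 : ℍ, (n : ℤ) ∣ Mer.ordAt z0 x) : ∃ y : Mer, y ^ n = x := by
  obtain ⟨a, b, hb, rfl⟩ := Mer.exists_eq_div x
  have ha : a ≠ 0 := by rintro rfl; simp at hx
  have hab : a * b ^ (n - 1) ≠ 0 := mul_ne_zero ha (pow_ne_zero _ hb)
  have hdiv : ∀ z0 : ℍ, n ∣ Hol.ordNat z0 (a * b ^ (n - 1)) := by
    intro z0
    have h1 := h z0
    rw [Mer.ordAt_div z0 ha hb] at h1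
    rw [Hol.ordNat_mul z0 ha (pow_ne_zero _ hb), ordNat_pow z0 hb]
    have h2 : ((Hol.ordNat z0 a + (n - 1) * Hol.ordNat z0 b : ℕ) : ℤ) =
        ((Hol.ordNat z0 a : ℤ) - Hol.ordNat z0 b) + n * Hol.ordNat z0 b := by
      have : ((n - 1 : ℕ) : ℤ) = (n : ℤ) - 1 := by
        rw [Nat.cast_sub hn]; simp
      push_cast
      rw [this]
      ring
    have h3 : (n : ℤ) ∣ ((Hol.ordNat z0 a + (n - 1) * Hol.ordNat z0 b : ℕ) : ℤ) := by
      rw [h2]
      exact dvd_add h1 (dvd_mul_right _ _)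
    exact_mod_cast h3
  obtain ⟨G, hG⟩ := exists_root hn hab hdiv
  refine ⟨toMer G / toMer b, ?_⟩
  have hb' := toMer_ne_zero hb
  rw [div_pow, ← map_pow, hG, map_mul, map_pow]
  have hpow : toMer b ^ n = toMer b ^ (n - 1) * toMer b := by
    rw [← pow_succ, Nat.sub_add_cancel hn]
  rw [hpow]
  field_simp

end Fermat.Agent.S29.Analytic.PthRoot
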